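import Mathlib.MeasureTheory.Function.LpSpace.ContinuousCompMeasurePreserving
import Mathlib.MeasureTheory.Function.L2Space
import Mathlib.MeasureTheory.Measure.Haar.Basic
import Mathlib.MeasureTheory.Group.Integral
import Mathlib.Analysis.InnerProductSpace.Adjoint
import Mathlib.Topology.UrysohnsLemma

/-!
# The regular representation and averaged operators

Left translations of a locally compact group act on `L²` of the Haar measure as a faithful strongly
continuous unitary representation.  A strongly continuous representation by isometries, averaged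
against a continuous function with compact support, gives an operator whose left translates depend
on the group element continuously in norm; near the identity such averages still separate.
-/

set_option autoImplicit false
set_option linter.unusedSectionVars false

noncomputable section

open MeasureTheory Topology Set Filter
open scoped ComplexConjugate InnerProductSpace ENNReal Pointwise

namespace FA.GelfandRaikov

variable {G : Type*} [Group G] [TopologicalSpace G] [IsTopologicalGroup G] [MeasurableSpace G]
  [BorelSpace G]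

section Average

variable {H : Type*} [NormedAddCommGroup H] [InnerProductSpace ℂ H] [CompleteSpace H]
  (μ : Measure G) [IsFiniteMeasureOnCompacts μ] [μ.IsMulLeftInvariant]

/-- A continuous compactly supported weight against a continuous orbit is integrable. -/
theorem integrable_smul_orbit {E : Type*} [NormedAddCommGroup E] [NormedSpace ℂ E] {f : G → ℂ}
    (hf : Continuous f) (hfs : HasCompactSupport f) {φ : G → E} (hφ : Continuous φ) :
    Integrable (fun g => f g • φ g) μ :=
  (hf.smul hφ).integrable_of_hasCompactSupport hfs.smul_right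

variable (S : G →* (H →L[ℂ] H)) (hS : ∀ v, Continuous fun g => S g v)
  (hiso : ∀ g v, ‖S g v‖ = ‖v‖)

include hiso in
theorem star_eq_inv (g : G) : star (S g) = S g⁻¹ := by
  rw [ContinuousLinearMap.star_eq_adjoint]
  refine ((ContinuousLinearMap.eq_adjoint_iff _ _).2 fun x y => ?_).symm
  let L : H →ₗᵢ[ℂ] H := ⟨(S g : H →ₗ[ℂ] H), hiso g⟩
  have h := L.inner_map_map (S g⁻¹ x) y
  change ⟪S g (S g⁻¹ x), S g y⟫_ℂ = _ at h
  rw [← mul_apply_eq_comp, ← map_mul, mul_inv_cancel, map_one, one_apply_eq_self] at h
  exact h.symm

include hS hiso in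
/-- **Averaging a representation.** The average, its adjoint, and norm continuity of translates. -/
theorem exists_average (f : G → ℂ) (hf : Continuous f) (hfs : HasCompactSupport f)
    [LocallyCompactSpace G] :
    ∃ a : H →L[ℂ] H, (∀ v, a v = ∫ g, f g • S g v ∂μ) ∧
      (∀ v, star a v = ∫ g, conj (f g) • S g⁻¹ v ∂μ) ∧ Continuous fun h => S h * a := by
  have hint : ∀ v, Integrable (fun g => f g • S g v) μ := fun v =>
    integrable_smul_orbit μ hf hfs (hS v)
  have hint' : ∀ v, Integrable (fun g => conj (f g) • S g⁻¹ v) μ := fun v =>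
    integrable_smul_orbit μ (Complex.continuous_conj.comp hf)
      (hfs.comp_left (g := conj) (map_zero _)) ((hS v).comp continuous_inv)
  have hnf : Integrable (fun g => ‖f g‖) μ := hf.norm.integrable_of_hasCompactSupport hfs.norm
  have hb : ∀ v, ‖∫ g, f g • S g v ∂μ‖ ≤ (∫ g, ‖f g‖ ∂μ) * ‖v‖ := fun v => by
    refine (norm_integral_le_integral_norm _).trans_eq ?_
    simp only [norm_smul, hiso]
    exact integral_mul_const _ _
  let a : H →L[ℂ] H := LinearMap.mkContinuous
    { toFun := fun v => ∫ g, f g • S g v ∂μ
      map_add' := fun v w => by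
        simp only [map_add, smul_add]
        exact integral_add (hint v) (hint w)
      map_smul' := fun c v => by
        simp only [map_smul, smul_comm (f _) c, RingHom.id_apply]
        exact integral_smul c _ } (∫ g, ‖f g‖ ∂μ) hb
  have ha : ∀ v, a v = ∫ g, f g • S g v ∂μ := fun v => rfl
  refine ⟨a, ha, fun v => ?_, continuous_iff_continuousAt.2 fun h₀ => ?_⟩
  · refine ext_inner_right ℂ fun w => ?_
    rw [ContinuousLinearMap.star_eq_adjoint, ContinuousLinearMap.adjoint_inner_left, ha,
      ← integral_inner (hint w), ← inner_conj_symm, ← integral_inner (hint' v), ← integral_conj]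
    refine integral_congr_ae (.of_forall fun g => ?_)
    simp only [inner_smul_right, map_mul, Complex.conj_conj, inner_conj_symm]
    rw [← star_eq_inv S hiso g, ContinuousLinearMap.star_eq_adjoint,
      ContinuousLinearMap.adjoint_inner_left]
  obtain ⟨N, hN, hN0⟩ := exists_compact_mem_nhds h₀
  set F : G → ℝ := fun h => ∫ g, ‖f (h⁻¹ * g) - f (h₀⁻¹ * g)‖ ∂μ with hF
  have hFc : ContinuousOn F N := by
    refine continuousOn_integral_of_compact_support (hN.mul hfs)
      (Continuous.continuousOn (by fun_prop)) fun h g hh hg => ?_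
    have e : ∀ k ∈ N, f (k⁻¹ * g) = 0 := fun k hk => image_eq_zero_of_notMem_tsupport fun hm =>
      hg ⟨k, hk, k⁻¹ * g, hm, mul_inv_cancel_left k g⟩
    rw [e h hh, e h₀ (mem_of_mem_nhds hN0), sub_self, norm_zero]
  have hint2 : ∀ h : G, ∀ v, Integrable (fun g => f (h⁻¹ * g) • S g v) μ := fun h v =>
    integrable_smul_orbit μ (hf.comp (continuous_const.mul continuous_id))
      (hfs.comp_homeomorph (Homeomorph.mulLeft h⁻¹)) (hS v)
  have key : ∀ h v, S h (a v) = ∫ g, f (h⁻¹ * g) • S g v ∂μ := fun h v => by
    rw [ha, ← (S h).integral_comp_comm (hint v),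
      ← integral_mul_left_eq_self (fun g => f (h⁻¹ * g) • S g v) h]
    refine integral_congr_ae (.of_forall fun g => ?_)
    simp only [map_smul, inv_mul_cancel_left, map_mul, mul_apply_eq_comp]
  have hbound : ∀ h, ‖S h * a - S h₀ * a‖ ≤ F h := fun h => by
    refine ContinuousLinearMap.opNorm_le_bound _ (integral_nonneg fun g => norm_nonneg _) fun v => ?_
    rw [sub_apply, mul_apply_eq_comp, mul_apply_eq_comp, key, key,
      ← integral_sub (hint2 h v) (hint2 h₀ v)]
    refine (norm_integral_le_integral_norm _).trans_eq ?_
    simp only [← sub_smul, norm_smul, hiso]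
    exact integral_mul_const _ _
  have h0 : Tendsto F (𝓝 h₀) (𝓝 0) := by
    have h := (hFc.continuousAt hN0).tendsto
    simpa [hF] using h
  exact tendsto_iff_norm_sub_tendsto_zero.2 (squeeze_zero (fun h => norm_nonneg _) hbound h0)

end Average

section Translation

variable [T2Space G] [LocallyCompactSpace G]

variable (G) in
/-- `L²` of the Haar measure. -/
abbrev HaarL2 : Type _ := Lp ℂ 2 (Measure.haar : Measure G)

/-- Left translation on `L²`. -/
def leftTranslation : G →* (HaarL2 G →L[ℂ] HaarL2 G) where
  toFun g := (Lp.compMeasurePreservingₗᵢ ℂ (g⁻¹ * ·)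
    (measurePreserving_mul_left (Measure.haar : Measure G) g⁻¹)).toContinuousLinearMap
  map_one' := by
    ext1 v
    refine Lp.ext ((Lp.coeFn_compMeasurePreserving v _).trans (.of_forall fun x => ?_))
    simp
  map_mul' g h := by
    ext1 v
    refine Lp.ext ?_
    refine (Lp.coeFn_compMeasurePreserving v _).trans (EventuallyEq.symm ?_)
    refine (Lp.coeFn_compMeasurePreserving _ _).trans ?_
    refine ((measurePreserving_mul_left (Measure.haar : Measure G) g⁻¹).quasiMeasurePreserving.ae
      (Lp.coeFn_compMeasurePreserving v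
        (measurePreserving_mul_left (Measure.haar : Measure G) h⁻¹))).mono fun x hx => ?_
    refine hx.trans ?_
    simp [mul_assoc]

theorem leftTranslation_coe (g : G) (v : HaarL2 G) :
    leftTranslation g v =ᵐ[Measure.haar] fun x => v (g⁻¹ * x) :=
  Lp.coeFn_compMeasurePreserving v _

theorem norm_leftTranslation (g : G) (v : HaarL2 G) : ‖leftTranslation g v‖ = ‖v‖ :=
  Lp.norm_compMeasurePreserving v _

/-- **Strong continuity of translations.** -/
theorem continuous_leftTranslation (v : HaarL2 G) : Continuous fun g => leftTranslation g v := by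
  let F : G → C(G, G) := fun g => ⟨fun x => g⁻¹ * x, continuous_const.mul continuous_id⟩
  have hF : Continuous F := ContinuousMap.continuous_of_continuous_uncurry F
    ((continuous_fst.inv).mul continuous_snd)
  exact (continuous_const (y := v)).compMeasurePreservingLp hF
    (fun g => measurePreserving_mul_left (Measure.haar : Measure G) g⁻¹) ENNReal.ofNat_ne_top

/-- **Translations are faithful.** -/
theorem exists_leftTranslation_ne {x : G} (hx : x ≠ 1) :
    ∃ v : HaarL2 G, leftTranslation x v ≠ v := by
  obtain ⟨u, h1, h0, hus, -⟩ := exists_continuous_one_zero_of_isCompact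
    (isCompact_singleton (x := (1 : G))) (isClosed_singleton (x := x⁻¹))
    (disjoint_singleton.2 (fun e => hx (inv_eq_one.1 e.symm)))
  have hc : Continuous fun y => (u y : ℂ) := Complex.continuous_ofReal.comp u.continuous
  have hm : MemLp (fun y => (u y : ℂ)) 2 (Measure.haar : Measure G) :=
    hc.memLp_of_hasCompactSupport (hus.comp_left (g := ((↑) : ℝ → ℂ)) Complex.ofReal_zero)
  refine ⟨hm.toLp _, fun e => ?_⟩
  have h2 : (fun y => (u (x⁻¹ * y) : ℂ)) =ᵐ[(Measure.haar : Measure G)] fun y => (u y : ℂ) := by
    refine EventuallyEq.trans ?_ hm.coeFn_toLp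
    have := leftTranslation_coe x (hm.toLp _)
    rw [e] at this
    refine EventuallyEq.trans ?_ this.symm
    exact ((measurePreserving_mul_left (Measure.haar : Measure G) x⁻¹).quasiMeasurePreserving.ae
      hm.coeFn_toLp).mono fun y hy => hy.symm
  have h3 := congrFun ((Continuous.ae_eq_iff_eq _ (hc.comp (continuous_const.mul continuous_id))
    hc).1 h2) 1
  change (u (x⁻¹ * 1) : ℂ) = (u 1 : ℂ) at h3
  rw [mul_one, h1 (mem_singleton 1), h0 (mem_singleton x⁻¹)] at h3
  simp at h3

/-- **Averages separate points.** -/
theorem exists_average_ne {x : G} (hx : x ≠ 1) :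
    ∃ (f : G → ℂ) (a : HaarL2 G →L[ℂ] HaarL2 G), Continuous f ∧ HasCompactSupport f ∧
      (∀ v, a v = ∫ g, f g • leftTranslation g v ∂Measure.haar) ∧
      (∀ v, star a v = ∫ g, conj (f g) • leftTranslation g⁻¹ v ∂Measure.haar) ∧
      Continuous (fun h => leftTranslation h * a) ∧ leftTranslation x * a ≠ a := by
  obtain ⟨v, hv⟩ := exists_leftTranslation_ne hx
  set T : G →* (HaarL2 G →L[ℂ] HaarL2 G) := leftTranslation with hT
  obtain ⟨d, hd⟩ : ∃ d, d = ‖T x v - v‖ := ⟨_, rfl⟩
  have hd0 : 0 < d := hd ▸ norm_pos_iff.2 (sub_ne_zero.2 hv)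
  have hVo : IsOpen {g | ‖T g v - v‖ < d / 3} :=
    isOpen_lt ((continuous_leftTranslation v).sub continuous_const).norm continuous_const
  have h1V : (1 : G) ∈ {g | ‖T g v - v‖ < d / 3} := by
    show ‖T 1 v - v‖ < d / 3
    rw [map_one, one_apply_eq_self, sub_self, norm_zero]
    linarith
  obtain ⟨u, h1, h0, hus, hu01⟩ := exists_continuous_one_zero_of_isCompact
    (isCompact_singleton (x := (1 : G))) hVo.isClosed_compl
    (disjoint_singleton_left.2 (not_not.2 h1V))
  have hfc : Continuous fun y => (u y : ℂ) := Complex.continuous_ofReal.comp u.continuous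
  have hfs : HasCompactSupport fun y => (u y : ℂ) :=
    hus.comp_left (g := ((↑) : ℝ → ℂ)) Complex.ofReal_zero
  obtain ⟨a, ha, hast, hac⟩ := exists_average (Measure.haar : Measure G) T
    continuous_leftTranslation norm_leftTranslation _ hfc hfs
  refine ⟨_, a, hfc, hfs, ha, hast, hac, fun e => ?_⟩
  set c : ℝ := ∫ g, u g ∂(Measure.haar : Measure G) with hc
  have hui : Integrable (fun g => u g) (Measure.haar : Measure G) :=
    u.continuous.integrable_of_hasCompactSupport hus
  have hc0 : 0 < c := u.continuous.integral_pos_of_hasCompactSupport_nonneg_nonzero hus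
    (fun g => (hu01 g).1) (x := 1) (by rw [h1 (mem_singleton 1)]; exact one_ne_zero)
  have hw : ‖a v - (c : ℂ) • v‖ ≤ c * (d / 3) := by
    rw [ha, hc, ← integral_complex_ofReal, ← integral_smul_const, ← integral_mul_const]
    refine le_trans (le_of_eq (congrArg norm (integral_sub
      (integrable_smul_orbit _ hfc hfs (φ := fun g => T g v) (continuous_leftTranslation v))
      ((hfc.integrable_of_hasCompactSupport hfs).smul_const v)).symm)) ?_
    refine norm_integral_le_of_norm_le (hui.mul_const _) (.of_forall fun g => ?_)
    rw [← smul_sub, norm_smul, Complex.norm_real, Real.norm_of_nonneg (hu01 g).1]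
    rcases lt_or_ge (‖T g v - v‖) (d / 3) with h | h
    · exact mul_le_mul_of_nonneg_left h.le (hu01 g).1
    · rw [h0 (show g ∈ {g | ‖T g v - v‖ < d / 3}ᶜ from not_lt.2 h)]
      simp
  have e1 : T x (a v) = a v := by rw [← mul_apply_eq_comp, e]
  have e2 : (c : ℂ) • (T x v - v) = (a v - (c : ℂ) • v) - T x (a v - (c : ℂ) • v) := by
    rw [map_sub, map_smul, e1, smul_sub]
    abel
  have e3 := congrArg norm e2
  rw [norm_smul, Complex.norm_real, Real.norm_of_nonneg hc0.le, ← hd] at e3
  have e4 := (norm_sub_le (a v - (c : ℂ) • v) (T x (a v - (c : ℂ) • v)))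
  rw [norm_leftTranslation, ← e3] at e4
  nlinarith

end Translation

end FA.GelfandRaikov

end
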