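import Fermat.Agent.GelfandRaikov.Main
import Fermat.Agent.PeterWeyl.Hilbert
import Mathlib.Analysis.CStarAlgebra.ContinuousFunctionalCalculus.Commute
import Mathlib.Analysis.CStarAlgebra.ContinuousFunctionalCalculus.Basic
import Mathlib.Topology.Algebra.ContinuousMonoidHom
import Mathlib.Analysis.Complex.Circle
import Mathlib.LinearAlgebra.Dimension.Finite

/-!
# Schur's lemma, compact groups and abelian groups

A normal operator commuting with an irreducible unitary representation is a scalar, by the
continuous functional calculus.  So irreducible representations of abelian groups are characters and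
the continuous characters of a locally compact abelian group separate points.  For compact groups
the irreducible representations are finite-dimensional.
-/

set_option autoImplicit false
set_option linter.unusedSectionVars false
set_option linter.style.haveILetI false

noncomputable section

open Topology Set FA.KadisonSinger
open scoped ComplexConjugate InnerProductSpace

universe u

namespace FA.GelfandRaikov

variable {G : Type u} [Group G] [TopologicalSpace G]
  {H : Type*} [NormedAddCommGroup H] [InnerProductSpace ℂ H] [CompleteSpace H]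
  {U : G →* (H →L[ℂ] H)}

/-- **Schur's lemma** for a family of operators without invariant subspaces. -/
theorem eq_scalar_of_noInvariant {ι : Type*} [Nontrivial H] {T : ι → H →L[ℂ] H}
    (hT : NoInvariantSubspace T) {S : H →L[ℂ] H} (hS : IsStarNormal S)
    (h1 : ∀ i, Commute S (T i)) (h2 : ∀ i, Commute (star S) (T i)) : ∃ z : ℂ, S = z • 1 := by
  obtain ⟨z, hz⟩ := spectrum.nonempty S
  refine ⟨z, ?_⟩
  have hsub : ∀ w ∈ spectrum ℂ S, w = z := fun w hw => by
    by_contra hne
    have hr : 0 < ‖w - z‖ := norm_pos_iff.2 (sub_ne_zero.2 hne)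
    let f₁ : ℂ → ℂ := fun s => ((max 0 (‖w - z‖ / 2 - ‖s - z‖) : ℝ) : ℂ)
    let f₂ : ℂ → ℂ := fun s => ((max 0 (‖w - z‖ / 2 - ‖s - w‖) : ℝ) : ℂ)
    have hc₁ : Continuous f₁ := by fun_prop
    have hc₂ : Continuous f₂ := by fun_prop
    have hprod : ∀ s, f₁ s * f₂ s = 0 := fun s => by
      rcases le_or_gt (‖w - z‖ / 2) ‖s - z‖ with h | h
      · simp [f₁, max_eq_left (sub_nonpos.2 h)]
      · have h' : ‖w - z‖ / 2 ≤ ‖s - w‖ := by
          have := norm_sub_le_norm_sub_add_norm_sub w s z
          rw [norm_sub_rev w s] at this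
          linarith
        simp [f₂, max_eq_left (sub_nonpos.2 h')]
    have hne₁ : cfc f₁ S ≠ 0 := fun e => by
      have h := eqOn_of_cfc_eq_cfc (f := f₁) (g := 0) (a := S) (e.trans (cfc_zero ℂ S).symm)
        hc₁.continuousOn continuousOn_const hS hz
      simp [f₁] at h
      linarith
    have hne₂ : cfc f₂ S ≠ 0 := fun e => by
      have h := eqOn_of_cfc_eq_cfc (f := f₂) (g := 0) (a := S) (e.trans (cfc_zero ℂ S).symm)
        hc₂.continuousOn continuousOn_const hS hw
      simp [f₂] at h
      linarith
    have hmul : cfc f₁ S * cfc f₂ S = 0 := by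
      rw [← cfc_mul f₁ f₂ S hc₁.continuousOn hc₂.continuousOn]
      exact (cfc_congr fun s _ => hprod s).trans (cfc_const_zero ℂ S)
    rcases hT (LinearMap.ker ((cfc f₁ S : H →L[ℂ] H) : H →ₗ[ℂ] H)) (cfc f₁ S).isClosed_ker
      (fun g v hv => by
        rw [LinearMap.mem_ker] at hv ⊢
        have h := congrArg (fun T => T v) ((h1 g).cfc (h2 g) f₁).eq
        simp only [mul_apply_eq_comp] at h
        exact h.trans (by rw [show cfc f₁ S v = 0 from hv, map_zero])) with h | h
    · refine hne₂ (ContinuousLinearMap.ext fun v => ?_)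
      have hv : cfc f₂ S v ∈ LinearMap.ker ((cfc f₁ S : H →L[ℂ] H) : H →ₗ[ℂ] H) := by
        rw [LinearMap.mem_ker]
        exact congrArg (fun T => T v) hmul
      rw [h, Submodule.mem_bot] at hv
      exact hv
    · exact hne₁ (ContinuousLinearMap.ext fun v => LinearMap.mem_ker.1 (h ▸ Submodule.mem_top))
  conv_lhs => rw [← cfc_id' ℂ S]
  rw [cfc_congr (g := fun _ => z) hsub, cfc_const z S, Algebra.algebraMap_eq_smul_one]

/-- **Schur's lemma** for normal intertwiners. -/
theorem IsIrreducibleUnitary.eq_scalar (hU : IsIrreducibleUnitary U) {S : H →L[ℂ] H}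
    (hS : IsStarNormal S) (h1 : ∀ g, Commute S (U g)) (h2 : ∀ g, Commute (star S) (U g)) :
    ∃ z : ℂ, S = z • 1 :=
  haveI := hU.nontrivial
  eq_scalar_of_noInvariant hU.no_invariant hS h1 h2

/-- In an abelian group every element acts by a scalar. -/
theorem IsIrreducibleUnitary.apply_eq_scalar (hU : IsIrreducibleUnitary U)
    (hG : ∀ g h : G, g * h = h * g) (x : G) : ∃ z : ℂ, U x = z • 1 := by
  have hstar : ∀ g, star (U g) = U g⁻¹ := fun g => by
    refine (left_inv_eq_right_inv (Unitary.mem_iff.1 (hU.mem_unitary g)).1 ?_)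
    rw [← map_mul, mul_inv_cancel, map_one]
  refine hU.eq_scalar ⟨?_⟩ (fun g => ?_) fun g => ?_
  · rw [Commute, SemiconjBy, (Unitary.mem_iff.1 (hU.mem_unitary x)).1,
      (Unitary.mem_iff.1 (hU.mem_unitary x)).2]
  · rw [Commute, SemiconjBy, ← map_mul, ← map_mul, hG]
  · rw [Commute, SemiconjBy, hstar, ← map_mul, ← map_mul, hG]

/-- **Irreducible representations of abelian groups are one-dimensional.** -/
theorem IsIrreducibleUnitary.finrank_eq_one (hU : IsIrreducibleUnitary U)
    (hG : ∀ g h : G, g * h = h * g) : Module.finrank ℂ H = 1 := by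
  haveI := hU.nontrivial
  obtain ⟨v, hv⟩ := exists_ne (0 : H)
  rcases hU.no_invariant (Submodule.span ℂ {v}) (Submodule.closed_of_finiteDimensional _)
    (fun g w hw => by
      obtain ⟨z, hz⟩ := hU.apply_eq_scalar hG g
      rw [hz]
      exact Submodule.smul_mem _ z hw) with h | h
  · exact absurd (Submodule.span_singleton_eq_bot.1 h) hv
  · rw [← finrank_top, ← h]
    exact finrank_span_singleton hv

variable [IsTopologicalGroup G] [LocallyCompactSpace G] [T2Space G]

/-- **The continuous characters of a locally compact abelian group separate points.** -/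
theorem exists_character_ne_one (hG : ∀ g h : G, g * h = h * g) {x : G} (hx : x ≠ 1) :
    ∃ χ : G →ₜ* Circle, χ x ≠ 1 := by
  letI : MeasurableSpace G := borel G
  haveI : BorelSpace G := ⟨rfl⟩
  obtain ⟨H, _, _, _, U, hU, hne⟩ := exists_irreducible_ne_one hx
  haveI := hU.nontrivial
  obtain ⟨v₀, hv₀⟩ := exists_ne (0 : H)
  obtain ⟨v, hv⟩ : ∃ v : H, ‖v‖ = 1 := ⟨_, norm_smul_inv_norm (𝕜 := ℂ) hv₀⟩
  choose z hz using hU.apply_eq_scalar hG
  have hzv : ∀ g, z g = ⟪v, U g v⟫_ℂ := fun g => by
    rw [hz g, smul_apply, one_apply_eq_self, inner_smul_right,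
      inner_self_eq_norm_sq_to_K, hv]
    simp
  have hnorm : ∀ g, ‖z g‖ = 1 := fun g => by
    have h := norm_of_mem_unitary (hU.mem_unitary g) v
    rwa [hz g, smul_apply, one_apply_eq_self, norm_smul, hv, mul_one] at h
  have hmul : ∀ g h, z (g * h) = z g * z h := fun g h => by
    conv_lhs => rw [hzv, map_mul, mul_apply_eq_comp, hz h, smul_apply,
      one_apply_eq_self, map_smul, inner_smul_right, ← hzv]
    exact mul_comm _ _
  refine ⟨{ toFun := fun g => ⟨z g, mem_sphere_zero_iff_norm.2 (hnorm g)⟩
            map_one' := Circle.ext ?_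
            map_mul' := fun g h => Circle.ext (hmul g h)
            continuous_toFun := Continuous.subtype_mk ?_ _ }, fun e => hne ?_⟩
  · show z 1 = 1
    rw [hzv, map_one, one_apply_eq_self, inner_self_eq_norm_sq_to_K, hv]
    simp
  · exact (continuous_const.inner (hU.continuous_apply v)).congr fun g => (hzv g).symm
  · have h : z x = 1 := congrArg Subtype.val e
    rw [hz x, h, one_smul]

/-- **Irreducible unitary representations of compact groups are finite-dimensional.** -/
theorem IsIrreducibleUnitary.finiteDimensional [CompactSpace G] (hU : IsIrreducibleUnitary U) :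
    FiniteDimensional ℂ H :=
  FA.PeterWeyl.finiteDimensional_of_irreducible
    ⟨fun g => norm_of_mem_unitary (hU.mem_unitary g), hU.continuous_apply⟩
    fun V hV hinv => hU.no_invariant V hV hinv

end FA.GelfandRaikov

end
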