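import Fermat.Agent.GelfandRaikov.States
import Mathlib.Analysis.CStarAlgebra.GelfandNaimarkSegal
import Mathlib.Analysis.InnerProductSpace.Projection.Basic
import Mathlib.Analysis.SpecialFunctions.ContinuousFunctionalCalculus.Rpow.Basic

/-!
# Pure states give irreducible representations

A state gives a cyclic representation by the construction of Gelfand, Naimark and Segal.  If a
closed invariant subspace is proper, then the cyclic vector splits and so does the state, so for a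
pure state the orthogonal projection onto the subspace would be a scalar, which it is not.
-/

set_option autoImplicit false
set_option linter.unusedSectionVars false
set_option linter.style.haveILetI false

noncomputable section

open FA.KadisonSinger Topology
open scoped ComplexOrder ComplexConjugate InnerProductSpace

universe u

namespace FA.GelfandRaikov

/-- No closed invariant subspace but the trivial ones. -/
def NoInvariantSubspace {ι H : Type*} [NormedAddCommGroup H] [InnerProductSpace ℂ H]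
    (T : ι → H →L[ℂ] H) : Prop :=
  ∀ W : Submodule ℂ H, IsClosed (W : Set H) → (∀ i, ∀ w ∈ W, T i w ∈ W) → W = ⊥ ∨ W = ⊤

variable {A : Type u} [CStarAlgebra A]

section Abstract

variable {H : Type*} [NormedAddCommGroup H] [InnerProductSpace ℂ H] [CompleteSpace H]

/-- The cyclic representation of a pure state is irreducible. -/
theorem noInvariantSubspace_of_cyclic {φ : A →ₗ[ℂ] ℂ} (hφ : IsPureState φ)
    (π : A →⋆ₐ[ℂ] (H →L[ℂ] H)) (Ω : H) (hin : ∀ a b, ⟪π a Ω, π b Ω⟫_ℂ = φ (star a * b))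
    (hd : DenseRange fun a => π a Ω) : NoInvariantSubspace ⇑π := by
  intro W hW hinv
  haveI : CompleteSpace W := hW.completeSpace_coe
  have hπ1 : π 1 Ω = Ω := by rw [map_one]; rfl
  have hadj : ∀ a x y, ⟪π a x, y⟫_ℂ = ⟪x, π (star a) y⟫_ℂ := fun a x y => by
    rw [map_star, ContinuousLinearMap.star_eq_adjoint, ContinuousLinearMap.adjoint_inner_right]
  have horth : ∀ a, ∀ w ∈ Wᗮ, π a w ∈ Wᗮ := fun a w hw => by
    rw [Submodule.mem_orthogonal'] at hw ⊢
    intro v hv
    rw [hadj]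
    exact hw _ (hinv _ v hv)
  have hcomm : ∀ a x, W.starProjection (π a x) = π a (W.starProjection x) := fun a x =>
    Submodule.eq_starProjection_of_mem_orthogonal' (hinv a _ (W.starProjection_apply_mem x))
      (horth a _ (W.sub_starProjection_mem_orthogonal x))
      (by rw [← map_add, add_sub_cancel])
  set p := W.starProjection Ω with hp
  set q := Ω - p with hq
  have hpW : p ∈ W := W.starProjection_apply_mem Ω
  have hqW : q ∈ Wᗮ := W.sub_starProjection_mem_orthogonal Ω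
  have hcross : ∀ v ∈ W, ∀ w ∈ Wᗮ, ⟪v, w⟫_ℂ = 0 ∧ ⟪w, v⟫_ℂ = 0 := fun v hv w hw =>
    ⟨Submodule.inner_right_of_mem_orthogonal hv hw, Submodule.inner_left_of_mem_orthogonal hv hw⟩
  have hsplit : ∀ a, φ a = ⟪p, π a p⟫_ℂ + ⟪q, π a q⟫_ℂ := fun a => by
    have h := hin 1 a
    rw [hπ1, star_one, one_mul] at h
    rw [← h, show Ω = p + q by rw [hq, add_sub_cancel], map_add, inner_add_left, inner_add_right,
      inner_add_right, (hcross p hpW _ (horth a q hqW)).1, (hcross _ (hinv a p hpW) q hqW).2]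
    ring
  have hext : ∀ (T : H →L[ℂ] H), (∀ a, T (π a Ω) = 0) → T = 0 := fun T hT =>
    ContinuousLinearMap.ext fun x => congrFun (hd.equalizer T.continuous continuous_zero
      (funext hT)) x
  rcases eq_or_ne p 0 with hp0 | hp0
  · left
    have h0 := hext W.starProjection fun a => by rw [hcomm, ← hp, hp0, map_zero]
    refine (Submodule.eq_bot_iff W).2 fun w hw => ?_
    rw [← Submodule.starProjection_eq_self_iff.2 hw, h0]
    rfl
  rcases eq_or_ne q 0 with hq0 | hq0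
  · right
    have h0 := hext (1 - W.starProjection) fun a => by
      rw [sub_apply, one_apply_eq_self, hcomm, ← hp,
        show p = Ω from (sub_eq_zero.1 hq0).symm, sub_self]
    refine eq_top_iff.2 fun w _ => ?_
    rw [← Submodule.starProjection_eq_self_iff (K := W)]
    have := congrArg (fun T => T w) h0
    exact (sub_eq_zero.1 this).symm
  exfalso
  -- the two halves, normalised
  have hnorm : ∀ v : H, ⟪v, v⟫_ℂ = ((‖v‖ ^ 2 : ℝ) : ℂ) := fun v => by
    rw [inner_self_eq_norm_sq_to_K, Complex.ofReal_pow]; rfl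
  have hstate : ∀ v : H, v ≠ 0 → ∃ ψ : A →ₗ[ℂ] ℂ, IsState ψ ∧
      ∀ a, ψ a = ((‖v‖ ^ 2)⁻¹ : ℝ) * ⟪v, π a v⟫_ℂ := fun v hv => by
    refine ⟨((((‖v‖ ^ 2)⁻¹ : ℝ) : ℂ)) • ((innerSL ℂ v).toLinearMap ∘ₗ
      (LinearMap.applyₗ v) ∘ₗ ContinuousLinearMap.coeLM ℂ ∘ₗ π.toAlgHom.toLinearMap), ⟨?_, ?_⟩,
      fun a => rfl⟩
    · show (((‖v‖ ^ 2)⁻¹ : ℝ) : ℂ) * ⟪v, π 1 v⟫_ℂ = 1
      rw [map_one, one_apply_eq_self, hnorm, ← Complex.ofReal_mul,
        inv_mul_cancel₀ (pow_ne_zero 2 (norm_ne_zero_iff.2 hv)), Complex.ofReal_one]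
    · intro a
      show 0 ≤ (((‖v‖ ^ 2)⁻¹ : ℝ) : ℂ) * ⟪v, π (star a * a) v⟫_ℂ
      rw [map_mul, mul_apply_eq_comp, ← hadj, hnorm, ← Complex.ofReal_mul]
      exact Complex.zero_le_real.2 (by positivity)
  obtain ⟨φ₁, hs₁, h₁⟩ := hstate p hp0
  obtain ⟨φ₂, hs₂, h₂⟩ := hstate q hq0
  have hone : ‖p‖ ^ 2 + ‖q‖ ^ 2 = 1 := by
    have h := hsplit 1
    rw [hφ.1.1, map_one, one_apply_eq_self, one_apply_eq_self, hnorm,
      hnorm, ← Complex.ofReal_add] at h
    exact (Complex.ofReal_eq_one.1 h.symm)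
  have hp2 : 0 < ‖p‖ ^ 2 := by positivity
  have hq2 : 0 < ‖q‖ ^ 2 := by positivity
  have heq : ∀ a, ⟪p, π a p⟫_ℂ = ((‖p‖ ^ 2 : ℝ) : ℂ) * φ a := fun a => by
    rw [← hφ.2 φ₁ φ₂ hs₁ hs₂ (‖p‖ ^ 2) hp2 (by linarith) fun b => ?_, h₁, ← mul_assoc,
      ← Complex.ofReal_mul, mul_inv_cancel₀ hp2.ne', Complex.ofReal_one, one_mul]
    rw [hsplit, h₁, h₂, ← mul_assoc, ← mul_assoc, ← Complex.ofReal_one, ← Complex.ofReal_sub,
      ← Complex.ofReal_mul, ← Complex.ofReal_mul, show 1 - ‖p‖ ^ 2 = ‖q‖ ^ 2 by linarith,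
      mul_inv_cancel₀ hp2.ne', mul_inv_cancel₀ hq2.ne', Complex.ofReal_one, one_mul, one_mul]
  have hpt : p = ((‖p‖ ^ 2 : ℝ) : ℂ) • Ω := by
    rw [← sub_eq_zero]
    have h0 : innerSL ℂ (p - ((‖p‖ ^ 2 : ℝ) : ℂ) • Ω) = 0 := ContinuousLinearMap.ext fun x =>
      congrFun (hd.equalizer (innerSL ℂ _).continuous continuous_zero (funext fun b => ?_)) x
    · exact inner_self_eq_zero.1 (congrArg (fun T => T (p - ((‖p‖ ^ 2 : ℝ) : ℂ) • Ω)) h0)
    show ⟪p - ((‖p‖ ^ 2 : ℝ) : ℂ) • Ω, π b Ω⟫_ℂ = 0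
    have h := hin 1 b
    rw [hπ1, star_one, one_mul] at h
    rw [inner_sub_left, inner_smul_left, h, Complex.conj_ofReal, ← heq b, hp,
      Submodule.inner_starProjection_left_eq_right, hcomm, ← hp]
    rw [show Ω = p + q by rw [hq, add_sub_cancel], inner_add_left,
      (hcross _ (hinv b p hpW) q hqW).2, add_zero, sub_self]
  have h1 : ‖p‖ ^ 2 = 1 := by
    have e : p = ((‖p‖ ^ 2 : ℝ) : ℂ) • p := by
      conv_lhs => rw [← Submodule.starProjection_eq_self_iff.2 hpW, hpt, map_smul, ← hp]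
    have e' : (1 - ((‖p‖ ^ 2 : ℝ) : ℂ)) • p = 0 := by rw [sub_smul, one_smul, ← e, sub_self]
    exact (Complex.ofReal_eq_one.1 (sub_eq_zero.1 ((smul_eq_zero.1 e').resolve_right hp0)).symm)
  linarith

end Abstract

/-- **Pure states give irreducible cyclic representations.** -/
theorem exists_irreducible_of_pure_state {φ : A →ₗ[ℂ] ℂ} (hφ : IsPureState φ) :
    ∃ (H : Type u) (_ : NormedAddCommGroup H) (_ : InnerProductSpace ℂ H) (_ : CompleteSpace H)
      (π : A →⋆ₐ[ℂ] (H →L[ℂ] H)) (Ω : H), (∀ a b, ⟪π a Ω, π b Ω⟫_ℂ = φ (star a * b)) ∧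
      DenseRange (fun a => π a Ω) ∧ NoInvariantSubspace ⇑π := by
  letI := CStarAlgebra.spectralOrder A
  haveI := CStarAlgebra.spectralOrderedRing A
  let f : A →ₚ[ℂ] ℂ := PositiveLinearMap.mk₀ φ fun x hx => by
    obtain ⟨y, rfl⟩ := CStarAlgebra.nonneg_iff_eq_star_mul_self.1 hx
    exact hφ.1.2 y
  have happ : ∀ a, f.gnsStarAlgHom a ((f.toPreGNS 1 : f.PreGNS) : f.GNS) =
      ((f.toPreGNS a : f.PreGNS) : f.GNS) := fun a => by
    show f.gnsNonUnitalStarAlgHom a _ = _
    rw [f.gnsNonUnitalStarAlgHom_apply_coe]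
    simp [PositiveLinearMap.leftMulMapPreGNS_apply]
  have hin : ∀ a b, ⟪f.gnsStarAlgHom a ((f.toPreGNS 1 : f.PreGNS) : f.GNS),
      f.gnsStarAlgHom b ((f.toPreGNS 1 : f.PreGNS) : f.GNS)⟫_ℂ = φ (star a * b) := fun a b => by
    rw [happ, happ, UniformSpace.Completion.inner_coe, f.preGNS_inner_def]
    rfl
  have hd : DenseRange fun a => f.gnsStarAlgHom a ((f.toPreGNS 1 : f.PreGNS) : f.GNS) := by
    simp only [happ]
    exact UniformSpace.Completion.denseRange_coe.comp f.toPreGNS.surjective.denseRange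
      (UniformSpace.Completion.continuous_coe _)
  exact ⟨f.GNS, inferInstance, inferInstance, inferInstance, f.gnsStarAlgHom, _, hin, hd,
    noInvariantSubspace_of_cyclic hφ _ _ hin hd⟩

end FA.GelfandRaikov

end
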