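import Fermat.Agent.GelfandRaikov.GNS
import Fermat.Agent.GelfandRaikov.Regular
import Mathlib.Analysis.CStarAlgebra.ContinuousLinearMap
import Mathlib.Topology.Algebra.StarSubalgebra
import Mathlib.Topology.UniformSpace.UniformApproximation

/-!
# Irreducible representations separate the points of a locally compact group

An average `a` of the regular representation with `λ x * a ≠ a` generates with the translations a
C⋆-algebra.  A pure state norming `(λ x - 1) * a` gives an irreducible representation of this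
algebra; on the vectors coming from `a` it is strongly continuous in the group element and the image
of `a` is the average of the group representation, so the latter is irreducible and moves `x`.
-/

set_option autoImplicit false
set_option linter.unusedSectionVars false
set_option linter.style.haveILetI false

noncomputable section

open MeasureTheory Topology Set Filter FA.KadisonSinger
open scoped ComplexConjugate InnerProductSpace ComplexOrder Uniformity CStarAlgebra

universe u

namespace FA.GelfandRaikov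

variable {G : Type u} [Group G] [TopologicalSpace G]

/-- An irreducible strongly continuous unitary representation on a nonzero Hilbert space. -/
structure IsIrreducibleUnitary {H : Type*} [NormedAddCommGroup H] [InnerProductSpace ℂ H]
    [CompleteSpace H] (U : G →* (H →L[ℂ] H)) : Prop where
  nontrivial : Nontrivial H
  mem_unitary : ∀ g, U g ∈ unitary (H →L[ℂ] H)
  continuous_apply : ∀ v, Continuous fun g => U g v
  no_invariant : NoInvariantSubspace ⇑U

theorem norm_of_mem_unitary {H : Type*} [NormedAddCommGroup H] [InnerProductSpace ℂ H]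
    [CompleteSpace H] {u : H →L[ℂ] H} (hu : u ∈ unitary (H →L[ℂ] H)) (v : H) : ‖u v‖ = ‖v‖ :=
  (ContinuousLinearMap.norm_map_iff_adjoint_comp_self u).2
    (by rw [← ContinuousLinearMap.star_eq_adjoint]; exact (Unitary.mem_iff.1 hu).1) v

variable [IsTopologicalGroup G] [LocallyCompactSpace G] [MeasurableSpace G] [BorelSpace G]

/-- An integral of vectors of a closed subspace stays in it. -/
theorem integral_mem_submodule {H : Type*} [NormedAddCommGroup H] [InnerProductSpace ℂ H]
    [CompleteSpace H] {α : Type*} {mα : MeasurableSpace α} {μ : Measure α} {W : Submodule ℂ H}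
    (hW : IsClosed (W : Set H)) {φ : α → H} (hi : Integrable φ μ) (hφ : ∀ x, φ x ∈ W) :
    ∫ x, φ x ∂μ ∈ W := by
  haveI : CompleteSpace W := hW.completeSpace_coe
  rw [← Submodule.starProjection_eq_self_iff, ← W.starProjection.integral_comp_comm hi]
  exact integral_congr_ae (.of_forall fun x => Submodule.starProjection_eq_self_iff.2 (hφ x))

/-- **From an averaged operator to an irreducible representation.** -/
theorem exists_irreducible_of_average {L : Type u} [NormedAddCommGroup L] [InnerProductSpace ℂ L]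
    [CompleteSpace L] (μ : Measure G) [IsFiniteMeasureOnCompacts μ] [μ.IsMulLeftInvariant]
    (T : G →* (L →L[ℂ] L)) (hTiso : ∀ g v, ‖T g v‖ = ‖v‖) {f : G → ℂ} (hf : Continuous f) (hfs : HasCompactSupport f)
    (a : L →L[ℂ] L) (ha : ∀ v, a v = ∫ g, f g • T g v ∂μ)
    (hast : ∀ v, star a v = ∫ g, conj (f g) • T g⁻¹ v ∂μ) (hac : Continuous fun h => T h * a)
    {x : G} (hx : T x * a ≠ a) :
    ∃ (H : Type u) (_ : NormedAddCommGroup H) (_ : InnerProductSpace ℂ H) (_ : CompleteSpace H)
      (U : G →* (H →L[ℂ] H)), IsIrreducibleUnitary U ∧ U x ≠ 1 := by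
  set B₀ := (StarAlgebra.adjoin ℂ (insert a (range ⇑T))).topologicalClosure with hB₀
  haveI : IsClosed (B₀ : Set (L →L[ℂ] L)) := StarSubalgebra.isClosed_topologicalClosure _
  letI : CStarAlgebra B₀ := StarSubalgebra.cstarAlgebra B₀
  have hmem : ∀ b ∈ insert a (range ⇑T), b ∈ B₀ := fun b hb =>
    StarSubalgebra.le_topologicalClosure _ (StarAlgebra.subset_adjoin ℂ _ hb)
  let aB : B₀ := ⟨a, hmem a (mem_insert _ _)⟩
  let lB : G →* B₀ :=
    { toFun := fun g => ⟨T g, hmem _ (mem_insert_of_mem _ (mem_range_self g))⟩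
      map_one' := Subtype.ext (map_one T)
      map_mul' := fun g h => Subtype.ext (map_mul T g h) }
  have hstar : ∀ g, star (lB g) = lB g⁻¹ := fun g => Subtype.ext (star_eq_inv T hTiso g)
  set c : B₀ := lB x * aB - aB with hc
  have hc0 : c ≠ 0 := fun e => hx (sub_eq_zero.1 (congrArg Subtype.val e))
  haveI : Nontrivial B₀ := nontrivial_of_ne c 0 hc0
  obtain ⟨φ, hφ, hφc⟩ := exists_pure_state c
  obtain ⟨H, _, _, _, π, Ω, hin, hd, hirr⟩ := exists_irreducible_of_pure_state hφ
  refine ⟨H, inferInstance, inferInstance, inferInstance, ?_⟩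
  have hcΩ : π c Ω ≠ 0 := fun e => by
    have h := hin c c
    rw [e, inner_zero_left, hφc] at h
    exact pow_ne_zero 2 (norm_ne_zero_iff.2 hc0) (Complex.ofReal_eq_zero.1 h.symm)
  let U : G →* (H →L[ℂ] H) :=
    { toFun := fun g => π (lB g)
      map_one' := by rw [map_one, map_one]
      map_mul' := fun g h => by rw [map_mul, map_mul] }
  have hUu : ∀ g, U g ∈ unitary (H →L[ℂ] H) := fun g => by
    refine Unitary.mem_iff.2 ⟨?_, ?_⟩
    all_goals
      show _ * _ = (1 : H →L[ℂ] H)
      simp only [U, MonoidHom.coe_mk, OneHom.coe_mk, ← map_star, ← map_mul, hstar,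
        inv_mul_cancel, mul_inv_cancel, map_one]
  have hUiso : ∀ g v, ‖U g v‖ = ‖v‖ := fun g v => norm_of_mem_unitary (hUu g) v
  -- vectors with norm continuous orbit
  let πΩ : B₀ →L[ℂ] H :=
    (ContinuousLinearMap.apply ℂ H Ω).comp ⟨π.toAlgHom.toLinearMap, map_continuous π⟩
  have hπΩ : ∀ b, πΩ b = π b Ω := fun b => rfl
  let ι : B₀ →L[ℂ] (L →L[ℂ] L) :=
    ⟨{ toFun := Subtype.val, map_add' := fun _ _ => rfl, map_smul' := fun _ _ => rfl },
      continuous_subtype_val⟩
  have hformula : ∀ (w : G → ℂ) (σ : G → G) (b : B₀), Continuous w → HasCompactSupport w →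
      Continuous σ → (∀ v, (b : L →L[ℂ] L) v = ∫ g, w g • T (σ g) v ∂μ) → ∀ k : B₀,
      Continuous (fun g => lB g * k) →
      π (b * k) Ω = ∫ g, w g • π (lB (σ g) * k) Ω ∂μ := fun w σ b hw hws hσ hb k hk => by
    have hint : Integrable (fun g => w g • (lB (σ g) * k)) μ :=
      integrable_smul_orbit μ hw hws (hk.comp hσ)
    have e : b * k = ∫ g, w g • (lB (σ g) * k) ∂μ := by
      refine Subtype.ext (ContinuousLinearMap.ext fun v => ?_)
      refine Eq.trans ?_ (((ContinuousLinearMap.apply ℂ L v).comp ι).integral_comp_comm hint)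
      exact (hb ((k : L →L[ℂ] L) v)).trans rfl
    rw [← hπΩ, e, ← πΩ.integral_comp_comm hint]
    exact integral_congr_ae (.of_forall fun g => by
      show πΩ (w g • (lB (σ g) * k)) = _
      rw [map_smul, hπΩ])
  set E : Set B₀ := {k | ∃ h b, k = lB h * aB * b} with hE
  have hEc : ∀ k ∈ E, Continuous fun g => lB g * k := by
    rintro _ ⟨h, b, rfl⟩
    have h1 : Continuous fun g => lB (g * h) * aB :=
      (hac.comp (continuous_id.mul continuous_const)).subtype_mk _
    simp only [← mul_assoc, ← map_mul]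
    exact h1.mul continuous_const
  set K : Submodule ℂ H := (Submodule.span ℂ ((fun k => π k Ω) '' E)).topologicalClosure with hK
  have hKc : IsClosed (K : Set H) := Submodule.isClosed_topologicalClosure _
  have hEK : ∀ k ∈ E, π k Ω ∈ K := fun k hk =>
    Submodule.le_topologicalClosure _ (Submodule.subset_span ⟨k, hk, rfl⟩)
  have hKinv : ∀ b : B₀, (∀ k ∈ E, π (b * k) Ω ∈ K) → ∀ ξ ∈ K, π b ξ ∈ K := fun b hb ξ hξ => by
    refine Submodule.topologicalClosure_minimal _
      (t := K.comap (π b : H →ₗ[ℂ] H)) (Submodule.span_le.2 ?_) (hKc.preimage (π b).continuous) hξ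
    rintro _ ⟨k, hk, rfl⟩
    show π b (π k Ω) ∈ K
    rw [← mul_apply_eq_comp, ← map_mul]
    exact hb k hk
  -- subspaces invariant under the generators
  have hgen : ∀ W : Submodule ℂ H, IsClosed (W : Set H) → (∀ g, ∀ ξ ∈ W, π (lB g) ξ ∈ W) →
      (∀ ξ ∈ W, π aB ξ ∈ W) → (∀ ξ ∈ W, π (star aB) ξ ∈ W) → W = ⊥ ∨ W = ⊤ := by
    intro W hW h1 h2 h3
    let N : StarSubalgebra ℂ B₀ :=
      { carrier := {b | (∀ ξ ∈ W, π b ξ ∈ W) ∧ ∀ ξ ∈ W, π (star b) ξ ∈ W}
        mul_mem' := fun {p q} hp hq => ⟨fun ξ hξ => by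
            rw [map_mul, mul_apply_eq_comp]; exact hp.1 _ (hq.1 ξ hξ), fun ξ hξ => by
            rw [star_mul, map_mul, mul_apply_eq_comp]; exact hq.2 _ (hp.2 ξ hξ)⟩
        one_mem' := ⟨fun ξ hξ => by rwa [map_one, one_apply_eq_self], fun ξ hξ => by
            rwa [star_one, map_one, one_apply_eq_self]⟩
        add_mem' := fun {p q} hp hq => ⟨fun ξ hξ => by
            rw [map_add]; exact W.add_mem (hp.1 ξ hξ) (hq.1 ξ hξ), fun ξ hξ => by
            rw [star_add, map_add]; exact W.add_mem (hp.2 ξ hξ) (hq.2 ξ hξ)⟩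
        zero_mem' := ⟨fun ξ hξ => by rw [map_zero]; exact W.zero_mem, fun ξ hξ => by
            rw [star_zero, map_zero]; exact W.zero_mem⟩
        algebraMap_mem' := fun r => ⟨fun ξ hξ => by
            rw [AlgHomClass.commutes, Algebra.algebraMap_eq_smul_one]; exact W.smul_mem r hξ,
          fun ξ hξ => by
            rw [← algebraMap_star_comm, AlgHomClass.commutes, Algebra.algebraMap_eq_smul_one]
            exact W.smul_mem (star r) hξ⟩
        star_mem' := fun {p} hp => ⟨hp.2, by rw [star_star]; exact hp.1⟩ }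
    have hNc : IsClosed (N : Set B₀) := by
      have e : (N : Set B₀) = (⋂ ξ ∈ W, (fun b => π b ξ) ⁻¹' W) ∩
          ⋂ ξ ∈ W, (fun b => π (star b) ξ) ⁻¹' W := by
        ext b
        simp only [mem_inter_iff, mem_iInter, mem_preimage, SetLike.mem_coe]
        rfl
      rw [e]
      exact (isClosed_biInter fun ξ _ => hW.preimage
          ((ContinuousLinearMap.apply ℂ H ξ).continuous.comp (map_continuous π))).inter
        (isClosed_biInter fun ξ _ => hW.preimage
          ((ContinuousLinearMap.apply ℂ H ξ).continuous.comp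
            ((map_continuous π).comp continuous_star)))
    have hall : ∀ b : B₀, b ∈ N := fun b => by
      have hle : B₀ ≤ N.map B₀.subtype := by
        refine StarSubalgebra.topologicalClosure_minimal (StarAlgebra.adjoin_le ?_) ?_
        · rintro b (rfl | ⟨g, rfl⟩)
          · exact ⟨aB, ⟨h2, h3⟩, rfl⟩
          · exact ⟨lB g, ⟨h1 g, fun ξ hξ => by rw [hstar]; exact h1 g⁻¹ ξ hξ⟩, rfl⟩
        · rw [StarSubalgebra.coe_map]
          exact (‹IsClosed (B₀ : Set (L →L[ℂ] L))›).isClosedEmbedding_subtypeVal.isClosedMap _ hNc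
      obtain ⟨b', hb', e⟩ := hle b.2
      rwa [← Subtype.ext e]
    exact hirr W hW fun b ξ hξ => (hall b).1 ξ hξ
  have hlK : ∀ g, ∀ ξ ∈ K, π (lB g) ξ ∈ K := fun g => hKinv _ fun k ⟨h, b, hk⟩ =>
    hEK _ ⟨g * h, b, by rw [hk, map_mul]; simp only [mul_assoc]⟩
  have haK : ∀ ξ ∈ K, π aB ξ ∈ K := hKinv _ fun k _ => hEK _ ⟨1, k, by rw [map_one, one_mul]⟩
  have hsK : ∀ ξ ∈ K, π (star aB) ξ ∈ K := hKinv _ fun k hk => by
    rw [hformula (fun g => conj (f g)) (·⁻¹) (star aB) (Complex.continuous_conj.comp hf)
      (hfs.comp_left (map_zero _)) continuous_inv hast k (hEc k hk)]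
    refine integral_mem_submodule hKc (integrable_smul_orbit μ (Complex.continuous_conj.comp hf)
      (hfs.comp_left (map_zero _)) (πΩ.continuous.comp ((hEc k hk).comp continuous_inv))) fun g => ?_
    obtain ⟨h, b, rfl⟩ := hk
    exact K.smul_mem _ (hEK _ ⟨g⁻¹ * h, b, by rw [map_mul]; simp only [mul_assoc]⟩)
  have hKtop : K = ⊤ := by
    refine (hgen K hKc hlK haK hsK).resolve_left fun e => hcΩ ?_
    have h : π c Ω ∈ K := by
      rw [hc, map_sub]
      exact K.sub_mem (hEK _ ⟨x, 1, (mul_one _).symm⟩)
        (hEK _ ⟨1, 1, by rw [map_one, one_mul, mul_one]⟩)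
    rwa [e, Submodule.mem_bot] at h
  have hdense : Dense (Submodule.span ℂ ((fun k => π k Ω) '' E) : Set H) :=
    Submodule.dense_iff_topologicalClosure_eq_top.2 hKtop
  have horbit : ∀ k ∈ E, Continuous fun g => U g (π k Ω) := fun k hk => by
    have h := πΩ.continuous.comp (hEc k hk)
    exact h.congr fun g => by
      show π (lB g * k) Ω = π (lB g) (π k Ω)
      rw [map_mul, mul_apply_eq_comp]
  -- strong continuity
  let M : Submodule ℂ H :=
    { carrier := {ξ | Continuous fun g => U g ξ}
      add_mem' := fun {p q} (hp : Continuous _) (hq : Continuous _) => by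
        show Continuous fun g => U g (p + q)
        simp only [map_add]
        exact hp.add hq
      zero_mem' := by
        show Continuous fun g => U g 0
        simp only [map_zero]
        exact continuous_const
      smul_mem' := fun r p (hp : Continuous _) => by
        show Continuous fun g => U g (r • p)
        simp only [map_smul]
        exact hp.const_smul r }
  have hUc : ∀ ξ, Continuous fun g => U g ξ := fun ξ => by
    refine continuous_of_uniform_approx_of_continuous fun s hs => ?_
    obtain ⟨ε, hε, hεs⟩ := Metric.mem_uniformity_dist.1 hs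
    obtain ⟨η, hη, hdist⟩ := Metric.mem_closure_iff.1 (hdense ξ) ε hε
    refine ⟨fun g => U g η, (Submodule.span_le (p := M).2 ?_) hη, fun g => hεs ?_⟩
    · rintro _ ⟨k, hk, rfl⟩
      exact horbit k hk
    · rw [dist_eq_norm] at hdist ⊢
      rwa [← map_sub, hUiso]
  obtain ⟨a', ha', hast', -⟩ := exists_average μ U hUc hUiso f hf hfs
  have haa : π aB = a' := by
    refine ContinuousLinearMap.ext_on hdense ?_
    rintro _ ⟨k, hk, rfl⟩
    show π aB (π k Ω) = a' (π k Ω)
    rw [← mul_apply_eq_comp, ← map_mul, hformula f id aB hf hfs continuous_id ha k (hEc k hk), ha']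
    refine integral_congr_ae (.of_forall fun g => ?_)
    show f g • π (lB g * k) Ω = f g • π (lB g) (π k Ω)
    rw [map_mul, mul_apply_eq_comp]
  refine ⟨U, ⟨nontrivial_of_ne _ _ hcΩ, hUu, hUc, fun W hW hinv => hgen W hW hinv
    (fun ξ hξ => ?_) (fun ξ hξ => ?_)⟩, fun e => hcΩ ?_⟩
  · rw [haa, ha']
    exact integral_mem_submodule hW (integrable_smul_orbit μ hf hfs (hUc ξ)) fun g =>
      W.smul_mem _ (hinv g ξ hξ)
  · rw [map_star, haa, hast']
    exact integral_mem_submodule hW (integrable_smul_orbit μ (Complex.continuous_conj.comp hf)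
      (hfs.comp_left (map_zero _)) ((hUc ξ).comp continuous_inv)) fun g =>
      W.smul_mem _ (hinv g⁻¹ ξ hξ)
  · rw [hc, map_sub, map_mul, show π (lB x) = 1 from e, one_mul, sub_self]
    rfl

/-- **The Gelfand-Raikov theorem.** -/
theorem exists_irreducible_ne_one [T2Space G] {x : G} (hx : x ≠ 1) :
    ∃ (H : Type u) (_ : NormedAddCommGroup H) (_ : InnerProductSpace ℂ H) (_ : CompleteSpace H)
      (U : G →* (H →L[ℂ] H)), IsIrreducibleUnitary U ∧ U x ≠ 1 := by
  obtain ⟨f, a, hf, hfs, ha, hast, hac, hne⟩ := exists_average_ne hx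
  exact exists_irreducible_of_average (L := HaarL2 G) _ leftTranslation
    norm_leftTranslation hf hfs a ha hast hac hne

end FA.GelfandRaikov

end
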