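import Fermat.Agent.KadisonSinger.Extension
import Mathlib.Analysis.Normed.Module.HahnBanach
import Mathlib.Analysis.Convex.KreinMilman
import Mathlib.Analysis.LocallyConvex.WeakDual
import Mathlib.Topology.Algebra.Module.LocallyConvex

/-!
# Pure states norming a given element

A norm one functional with value `1` at `1` is a state.  Hahn-Banach therefore gives a state with
`φ (star a * a) = ‖a‖ ^ 2`; these states form a compact face of all states for pointwise convergence,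
and an extreme point of it is a pure state.
-/

set_option autoImplicit false
set_option linter.unusedSectionVars false
set_option linter.style.haveILetI false

noncomputable section

open FA.KadisonSinger Topology
open scoped ComplexOrder ComplexConjugate

namespace FA.GelfandRaikov

variable {A : Type*} [CStarAlgebra A]

/-- **A unital functional of norm one is positive.** -/
theorem isState_of_norm {g : A →ₗ[ℂ] ℂ} (h1 : g 1 = 1) (hle : ∀ x, ‖g x‖ ≤ ‖x‖) : IsState g := by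
  letI := CStarAlgebra.spectralOrder A
  haveI := CStarAlgebra.spectralOrderedRing A
  haveI : Nontrivial A := nontrivial_of_ne 1 0 fun e => by
    rw [e, map_zero] at h1
    exact zero_ne_one h1
  have him : ∀ s : A, IsSelfAdjoint s → (g s).im = 0 := fun s hs => by
    by_contra hne
    have key : ∀ t : ℝ, ((g s).im + t) ^ 2 ≤ ‖s‖ ^ 2 + t ^ 2 := fun t => by
      have e : star (s + ((t : ℂ) * Complex.I) • (1 : A)) * (s + ((t : ℂ) * Complex.I) • (1 : A)) =
          s * s + ((t : ℂ) ^ 2) • (1 : A) := by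
        rw [star_add, star_smul, star_one, hs.star_eq, Complex.star_def, map_mul, Complex.conj_I,
          Complex.conj_ofReal]
        simp only [add_mul, mul_add, smul_mul_assoc, mul_smul_comm, mul_one, one_mul]
        have : (t : ℂ) * Complex.I * ((t : ℂ) * -Complex.I) = (t : ℂ) ^ 2 := by
          linear_combination -(t : ℂ) ^ 2 * Complex.I_sq
        rw [smul_add, smul_smul, this]
        module
      have h2 := hle (s + ((t : ℂ) * Complex.I) • (1 : A))
      rw [map_add, map_smul, h1, smul_eq_mul, mul_one] at h2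
      have h3 : ‖s + ((t : ℂ) * Complex.I) • (1 : A)‖ ^ 2 ≤ ‖s‖ ^ 2 + t ^ 2 := by
        rw [sq, ← CStarRing.norm_star_mul_self, e]
        refine (norm_add_le _ _).trans (add_le_add ((norm_mul_le _ _).trans (le_of_eq (sq ‖s‖).symm))
          (le_of_eq ?_))
        rw [norm_smul, norm_pow, Complex.norm_real, Real.norm_eq_abs, sq_abs, norm_one, mul_one]
      refine le_trans ?_ ((pow_le_pow_left₀ (norm_nonneg _) h2 2).trans h3)
      have h4 := Complex.abs_im_le_norm (g s + (t : ℂ) * Complex.I)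
      have h5 : (g s + (t : ℂ) * Complex.I).im = (g s).im + t := by simp
      rw [h5] at h4
      rw [← sq_abs]
      exact pow_le_pow_left₀ (abs_nonneg _) h4 2
    have := key ((‖s‖ ^ 2 + 1) / (2 * (g s).im))
    have h6 : 2 * (g s).im * ((‖s‖ ^ 2 + 1) / (2 * (g s).im)) = ‖s‖ ^ 2 + 1 := by
      field_simp
    nlinarith
  refine ⟨h1, fun x => Complex.le_def.2 ⟨?_, ?_⟩⟩
  · have hp : (0 : A) ≤ star x * x := star_mul_self_nonneg x
    set p := star x * x
    set N := ‖p‖
    have hub : p ≤ algebraMap ℝ A N := IsSelfAdjoint.le_algebraMap_norm_self (IsSelfAdjoint.of_nonneg hp)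
    have hn : ‖algebraMap ℝ A N - p‖ ≤ N :=
      (CStarAlgebra.norm_le_iff_le_algebraMap _ (norm_nonneg _) (sub_nonneg.2 hub)).2
        (sub_le_self _ hp)
    have h2 := (Complex.re_le_norm _).trans ((hle _).trans hn)
    rw [map_sub, IsScalarTower.algebraMap_apply ℝ ℂ A, Algebra.algebraMap_eq_smul_one (A := A),
      map_smul, h1, smul_eq_mul, mul_one, Complex.sub_re, Complex.coe_algebraMap,
      Complex.ofReal_re] at h2
    rw [Complex.zero_re]
    linarith
  · rw [Complex.zero_im, him _ (IsSelfAdjoint.star_mul_self x)]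

/-- **A state norming `star a * a`.** -/
theorem exists_norming_state [Nontrivial A] (a : A) :
    ∃ g : A →ₗ[ℂ] ℂ, IsState g ∧ g (star a * a) = ((‖a‖ ^ 2 : ℝ) : ℂ) := by
  letI := CStarAlgebra.spectralOrder A
  haveI := CStarAlgebra.spectralOrderedRing A
  set b := star a * a
  have hb : ‖b‖ = ‖a‖ ^ 2 := by rw [CStarRing.norm_star_mul_self, sq]
  have hspec : ((‖b‖ : ℝ) : ℂ) ∈ spectrum ℂ b :=
    spectrum.algebraMap_mem ℂ (CStarAlgebra.norm_mem_spectrum_of_nonneg (star_mul_self_nonneg a))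
  have hbound : ∀ u v : ℂ, ‖u + v * (‖b‖ : ℂ)‖ ≤ ‖u • (1 : A) + v • b‖ := fun u v => by
    refine spectrum.norm_le_norm_of_mem (spectrum.mem_iff.2 fun h => ?_)
    have e : algebraMap ℂ A (u + v * (‖b‖ : ℂ)) - (u • (1 : A) + v • b) =
        v • (algebraMap ℂ A (‖b‖ : ℂ) - b) := by
      simp only [Algebra.algebraMap_eq_smul_one]
      module
    rw [e] at h
    rcases eq_or_ne v 0 with rfl | hv
    · simp at h
    · refine spectrum.mem_iff.1 hspec ?_
      have h' := IsUnit.smul (Units.mk0 v hv)⁻¹ h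
      rwa [Units.smul_def, Units.val_inv_eq_inv_val, Units.val_mk0, inv_smul_smul₀ hv] at h'
  let L : (Fin 2 → ℂ) →ₗ[ℂ] A := Fintype.linearCombination ℂ ![(1 : A), b]
  have hL : ∀ c, L c = c 0 • (1 : A) + c 1 • b := fun c => by
    simp [L, Fintype.linearCombination_apply, Fin.sum_univ_two]
  have hLbound : ∀ c, ‖c 0 + c 1 * (‖b‖ : ℂ)‖ ≤ ‖L c‖ := fun c => by rw [hL]; exact hbound _ _
  let φ₀ : (Fin 2 → ℂ) →ₗ[ℂ] ℂ := Fintype.linearCombination ℂ ![(1 : ℂ), (‖b‖ : ℂ)]
  have hφ₀ : ∀ c, φ₀ c = c 0 + c 1 * (‖b‖ : ℂ) := fun c => by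
    simp [φ₀, Fintype.linearCombination_apply, Fin.sum_univ_two]
  have hker : LinearMap.ker L ≤ LinearMap.ker φ₀ := fun c hc => by
    rw [LinearMap.mem_ker] at hc ⊢
    rw [hφ₀, ← norm_le_zero_iff]
    exact (hLbound c).trans_eq (by rw [hc, norm_zero])
  let ψ : LinearMap.range L →ₗ[ℂ] ℂ :=
    (Submodule.liftQ _ φ₀ hker).comp (LinearMap.quotKerEquivRange L).symm.toLinearMap
  have hψ : ∀ c, ψ ⟨L c, c, rfl⟩ = φ₀ c := fun c => by
    simp only [ψ, LinearMap.comp_apply, LinearEquiv.coe_coe]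
    rw [show (⟨L c, c, rfl⟩ : LinearMap.range L) = ⟨L c, LinearMap.mem_range_self L c⟩ from rfl,
      LinearMap.quotKerEquivRange_symm_apply_image]
    rfl
  have hψn : ∀ y, ‖ψ y‖ ≤ 1 * ‖y‖ := by
    rintro ⟨_, c, rfl⟩
    rw [hψ, hφ₀, one_mul]
    exact hLbound c
  obtain ⟨g, hg, hgn⟩ := exists_extension_norm_eq (LinearMap.range L) (ψ.mkContinuous 1 hψn)
  have hg1 : ‖g‖ ≤ 1 := hgn ▸ LinearMap.mkContinuous_norm_le _ zero_le_one _
  have hval : ∀ c, g (L c) = φ₀ c := fun c => (hg ⟨L c, c, rfl⟩).trans (hψ c)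
  refine ⟨(g : A →ₗ[ℂ] ℂ), isState_of_norm ?_ (fun x => ?_), ?_⟩
  · have h := hval ![1, 0]
    rw [hφ₀, hL] at h
    simpa using h
  · exact (g.le_opNorm x).trans (mul_le_of_le_one_left (norm_nonneg _) hg1)
  · have h := hval ![0, 1]
    rw [hφ₀, hL] at h
    rw [← hb]
    simpa using h

/-- The states norming `star a * a`, as functions. -/
def normingStates (a : A) : Set (A → ℂ) :=
  {f | ∃ φ : A →ₗ[ℂ] ℂ, ⇑φ = f ∧ IsState φ ∧ φ (star a * a) = ((‖a‖ ^ 2 : ℝ) : ℂ)}

theorem isCompact_normingStates (a : A) : IsCompact (normingStates a) := by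
  refine IsCompact.of_isClosed_subset
    (isCompact_univ_pi fun x : A => isCompact_closedBall (0 : ℂ) ‖x‖) ?_ ?_
  · have e : normingStates a = {f | ∀ x y, f (x + y) = f x + f y} ∩
        {f | ∀ (c : ℂ) (x : A), f (c • x) = c * f x} ∩ {f | f 1 = 1} ∩
        {f | ∀ x, (f (star x * x)).im = 0} ∩ {f | ∀ x, 0 ≤ (f (star x * x)).re} ∩
        {f | f (star a * a) = ((‖a‖ ^ 2 : ℝ) : ℂ)} := by
      ext f
      simp only [normingStates, Set.mem_inter_iff, Set.mem_ofPred_eq]
      constructor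
      · rintro ⟨φ, rfl, ⟨h1, hp⟩, ha⟩
        exact ⟨⟨⟨⟨⟨map_add φ, fun c x => map_smul φ c x⟩, h1⟩,
          fun x => (Complex.le_def.1 (hp x)).2.symm⟩, fun x => (Complex.le_def.1 (hp x)).1⟩, ha⟩
      · rintro ⟨⟨⟨⟨⟨ha, hs⟩, h1⟩, hi⟩, hr⟩, hn⟩
        exact ⟨{ toFun := f, map_add' := ha, map_smul' := hs }, rfl,
          ⟨h1, fun x => Complex.le_def.2 ⟨hr x, (hi x).symm⟩⟩, hn⟩
    rw [e]
    simp only [Set.ofPred_forall]
    refine (((((isClosed_iInter fun x => isClosed_iInter fun y => isClosed_eq (by fun_prop) (by fun_prop)).inter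
      (isClosed_iInter fun c => isClosed_iInter fun x => isClosed_eq (by fun_prop) (by fun_prop))).inter
      (isClosed_eq (by fun_prop) (by fun_prop))).inter
      (isClosed_iInter fun x => isClosed_eq (by fun_prop) (by fun_prop))).inter
      (isClosed_iInter fun x => isClosed_le (by fun_prop) (by fun_prop))).inter
      (isClosed_eq (by fun_prop) (by fun_prop))
  · rintro _ ⟨φ, rfl, hφ, -⟩ x -
    rw [mem_closedBall_zero_iff]
    exact hφ.norm_le_norm x

/-- **A pure state norming `star a * a`.** -/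
theorem exists_pure_state [Nontrivial A] (a : A) :
    ∃ φ : A →ₗ[ℂ] ℂ, IsPureState φ ∧ φ (star a * a) = ((‖a‖ ^ 2 : ℝ) : ℂ) := by
  obtain ⟨g, hg, hga⟩ := exists_norming_state a
  obtain ⟨f, hf⟩ := (isCompact_normingStates a).extremePoints_nonempty ⟨⇑g, g, rfl, hg, hga⟩
  obtain ⟨φ, rfl, hφ, hφa⟩ := hf.1
  refine ⟨φ, ⟨hφ, fun φ₁ φ₂ h₁ h₂ t ht ht1 hsum => ?_⟩, hφa⟩
  have hval : ∀ ψ : A →ₗ[ℂ] ℂ, IsState ψ →
      (ψ (star a * a)).im = 0 ∧ (ψ (star a * a)).re ≤ ‖a‖ ^ 2 := fun ψ hψ =>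
    ⟨(Complex.le_def.1 (hψ.2 a)).2.symm, (Complex.re_le_norm _).trans ((hψ.norm_le_norm _).trans
      (le_of_eq (by rw [CStarRing.norm_star_mul_self, sq])))⟩
  obtain ⟨i1, r1⟩ := hval φ₁ h₁
  obtain ⟨i2, r2⟩ := hval φ₂ h₂
  have hre : ‖a‖ ^ 2 = t * (φ₁ (star a * a)).re + (1 - t) * (φ₂ (star a * a)).re := by
    have h := congrArg Complex.re ((hφa.symm).trans (hsum (star a * a)))
    rw [Complex.ofReal_re, Complex.add_re, ← Complex.ofReal_one, ← Complex.ofReal_sub,
      Complex.re_ofReal_mul, Complex.re_ofReal_mul] at h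
    exact h
  have hm1 : φ₁ (star a * a) = ((‖a‖ ^ 2 : ℝ) : ℂ) :=
    Complex.ext (by rw [Complex.ofReal_re]; nlinarith) (by rw [Complex.ofReal_im]; exact i1)
  have hm2 : φ₂ (star a * a) = ((‖a‖ ^ 2 : ℝ) : ℂ) :=
    Complex.ext (by rw [Complex.ofReal_re]; nlinarith) (by rw [Complex.ofReal_im]; exact i2)
  refine LinearMap.coe_injective (hf.2 ⟨φ₁, rfl, h₁, hm1⟩ ⟨φ₂, rfl, h₂, hm2⟩
    ⟨t, 1 - t, ht, by linarith, by ring, funext fun x => ?_⟩)
  rw [Pi.add_apply, Pi.smul_apply, Pi.smul_apply, Complex.real_smul, Complex.real_smul,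
    Complex.ofReal_sub, Complex.ofReal_one, ← hsum x]

end FA.GelfandRaikov

end
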